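import Mathlib
import Fermat.Prelude.Def_GaloisRep_Adic
import Fermat.Agent.S29.H872.Burnside
import Fermat.Agent.S31.H202.MatOrth

/-!
# S31 / ALG-1: trace rigidity (helper202)

For `ρ : GaloisRepAdic A` (`A` any local ring) with absolutely irreducible residual representation:

* `span_range_rho_eq_top` : the `A`-span of `ρ(G_ℚ)` is all of `End_A(V)`;
* `rho_eq_one_of_trace_invariant` : if `tr ρ(g τ) = tr ρ(g)` for all `g`, then `ρ(τ) = 1`;
* `rho_eq_of_trace_eq` : more generally `tr (ρ(g) X) = 0` for all `g` implies `X = 0`.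
-/

set_option autoImplicit false

namespace Fermat.Agent.S31.H202

open scoped TensorProduct

/-- `Gal(ℚ̄/ℚ)` (local notation of this file). -/
local notation "GQ" => (AlgebraicClosure ℚ ≃ₐ[ℚ] AlgebraicClosure ℚ)

variable {A : Type} [CommRing A] [IsLocalRing A]

/-- the chosen basis of the underlying module. -/
noncomputable def rhoBasis (ρ : GaloisRepAdic A) : Module.Basis (Fin 2) A ρ.V :=
  Module.finBasisOfFinrankEq A ρ.V ρ.finrank_eq

/-- the matrices of `ρ` in the chosen basis. -/
noncomputable def rhoMat (ρ : GaloisRepAdic A) (g : GQ) : Matrix (Fin 2) (Fin 2) A :=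
  LinearMap.toMatrix (rhoBasis ρ) (rhoBasis ρ) (ρ.ρ g)

/-- reduction `A → k → k̄`. -/
noncomputable def redHom (A : Type) [CommRing A] [IsLocalRing A] :
    A →+* AlgebraicClosure (IsLocalRing.ResidueField A) :=
  (algebraMap (IsLocalRing.ResidueField A) (AlgebraicClosure (IsLocalRing.ResidueField A))).comp
    (algebraMap A (IsLocalRing.ResidueField A))

theorem redHom_eq_zero (a : A) (ha : a ∈ IsLocalRing.maximalIdeal A) : redHom A a = 0 := by
  unfold redHom
  rw [RingHom.comp_apply, IsLocalRing.ResidueField.algebraMap_eq,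
    (IsLocalRing.residue_eq_zero_iff a).mpr ha, map_zero]

theorem span_rhoMat_map (ρ : GaloisRepAdic A) (habs : ρ.residual.IsAbsolutelyIrreducible) :
    Submodule.span (AlgebraicClosure (IsLocalRing.ResidueField A))
      (Set.range fun g => (rhoMat ρ g).map (redHom A)) = ⊤ := by
  classical
  set k := IsLocalRing.ResidueField A with hk
  set K := AlgebraicClosure k with hK
  set b := rhoBasis ρ with hb
  set bk : Module.Basis (Fin 2) k (k ⊗[A] ρ.V) := Algebra.TensorProduct.basis k b with hbk
  set bK : Module.Basis (Fin 2) K (K ⊗[k] (k ⊗[A] ρ.V)) := Algebra.TensorProduct.basis K bk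
    with hbK
  set ρK : GQ →* Module.End K (K ⊗[k] (k ⊗[A] ρ.V)) := (ρ.residual.baseChange K).ρ with hρK
  have hF : ∀ g, (rhoMat ρ g).map (redHom A) = LinearMap.toMatrix bK bK (ρK g) := by
    intro g
    have h1 : ρK g = ((ρ.ρ g).baseChange k).baseChange K := rfl
    rw [h1, LinearMap.toMatrix_baseChange, LinearMap.toMatrix_baseChange, Matrix.map_map]
    rfl
  have hnt : Nontrivial (K ⊗[k] (k ⊗[A] ρ.V)) := by
    apply Module.nontrivial_of_finrank_pos (R := K)
    have h2 : Module.finrank K (K ⊗[k] (k ⊗[A] ρ.V)) = 2 := (ρ.residual.baseChange K).finrank_eq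
    rw [h2]
    norm_num
  have hB : Algebra.adjoin K (Set.range ρK) = ⊤ := by
    apply Fermat.Agent.S29.H872.burnside
    intro W hW
    refine habs W (fun σ x hx => ?_)
    exact hW (ρK σ) (Algebra.subset_adjoin ⟨σ, rfl⟩) hx
  have hspanK : Submodule.span K (Set.range ρK) = ⊤ := by
    have h1 := Algebra.adjoin_eq_span K (Set.range ρK)
    have h2 : (Submonoid.closure (Set.range ρK) : Set (Module.End K (K ⊗[k] (k ⊗[A] ρ.V))))
        = Set.range ρK := by
      have : Submonoid.closure (Set.range ρK) = MonoidHom.mrange ρK := by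
        rw [← MonoidHom.coe_mrange, Submonoid.closure_eq]
      rw [this, MonoidHom.coe_mrange]
    rw [h2, hB] at h1
    rw [← h1]
    rfl
  -- transport along `toMatrix`
  have hrange : (Set.range fun g => (rhoMat ρ g).map (redHom A))
      = (LinearMap.toMatrix bK bK) '' (Set.range ρK) := by
    ext M
    constructor
    · rintro ⟨g, rfl⟩
      exact ⟨ρK g, ⟨g, rfl⟩, (hF g).symm⟩
    · rintro ⟨_, ⟨g, rfl⟩, rfl⟩
      exact ⟨g, hF g⟩
  have hmap : Submodule.map ((LinearMap.toMatrix bK bK).toLinearMap)
      (Submodule.span K (Set.range ρK))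
      = Submodule.span K ((LinearMap.toMatrix bK bK) '' (Set.range ρK)) :=
    Submodule.map_span _ _
  rw [hrange, ← hmap, hspanK, Submodule.map_top, LinearMap.range_eq_top]
  exact (LinearMap.toMatrix bK bK).surjective

/-- **Burnside + lifting**: the `A`-span of the image of a residually absolutely irreducible
representation is the full endomorphism ring. -/
theorem span_range_rho_eq_top (ρ : GaloisRepAdic A)
    (habs : ρ.residual.IsAbsolutelyIrreducible) :
    Submodule.span A (Set.range ρ.ρ) = ⊤ := by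
  classical
  have h := span_eq_top_of_span_map_eq_top (redHom A) redHom_eq_zero (rhoMat ρ)
    (span_rhoMat_map ρ habs)
  set b := rhoBasis ρ with hb
  have hrange : Set.range (rhoMat ρ) = (LinearMap.toMatrix b b) '' (Set.range ρ.ρ) := by
    ext M
    constructor
    · rintro ⟨g, rfl⟩
      exact ⟨ρ.ρ g, ⟨g, rfl⟩, rfl⟩
    · rintro ⟨_, ⟨g, rfl⟩, rfl⟩
      exact ⟨g, rfl⟩
  have hmap : Submodule.map ((LinearMap.toMatrix b b).toLinearMap)
      (Submodule.span A (Set.range ρ.ρ))
      = Submodule.span A ((LinearMap.toMatrix b b) '' (Set.range ρ.ρ)) :=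
    Submodule.map_span _ _
  rw [hrange, ← hmap] at h
  have hinj : Function.Injective (Submodule.map ((LinearMap.toMatrix b b).toLinearMap)) :=
    Submodule.map_injective_of_injective (LinearMap.toMatrix b b).injective
  apply hinj
  rw [h, Submodule.map_top]
  exact (LinearMap.range_eq_top.mpr (LinearMap.toMatrix b b).surjective).symm

/-- **Trace orthogonality**: an endomorphism orthogonal (for the trace form) to the image of a
residually absolutely irreducible representation is zero. -/
theorem eq_zero_of_trace_orth (ρ : GaloisRepAdic A)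
    (habs : ρ.residual.IsAbsolutelyIrreducible) (X : Module.End A ρ.V)
    (hX : ∀ g : GQ, LinearMap.trace A ρ.V (ρ.ρ g * X) = 0) : X = 0 := by
  classical
  set b := rhoBasis ρ with hb
  have h := mat_eq_zero_of_trace_orth (redHom A) redHom_eq_zero (rhoMat ρ)
    (span_rhoMat_map ρ habs) (LinearMap.toMatrix b b X) (fun g => by
      have := hX g
      rw [LinearMap.trace_eq_matrix_trace A b, LinearMap.toMatrix_mul] at this
      exact this)
  exact (LinearMap.toMatrix b b).injective (by rw [h, map_zero])

/-- **Trace rigidity** (ALG-1): if `tr ρ(g τ) = tr ρ(g)` for all `g`, then `ρ(τ) = 1`. -/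
theorem rho_eq_one_of_trace_invariant (ρ : GaloisRepAdic A)
    (habs : ρ.residual.IsAbsolutelyIrreducible) (τ : GQ)
    (h : ∀ g : GQ, LinearMap.trace A ρ.V (ρ.ρ (g * τ)) = LinearMap.trace A ρ.V (ρ.ρ g)) :
    ρ.ρ τ = 1 := by
  have h0 := eq_zero_of_trace_orth ρ habs (ρ.ρ τ - 1) (fun g => by
    rw [mul_sub, mul_one, map_sub, ← map_mul, h g, sub_self])
  exact sub_eq_zero.mp h0

/-- two elements with the same trace pairing against the image are equal. -/
theorem rho_eq_of_trace_eq (ρ : GaloisRepAdic A)
    (habs : ρ.residual.IsAbsolutelyIrreducible) (σ τ : GQ)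
    (h : ∀ g : GQ, LinearMap.trace A ρ.V (ρ.ρ (g * σ)) = LinearMap.trace A ρ.V (ρ.ρ (g * τ))) :
    ρ.ρ σ = ρ.ρ τ := by
  have h0 := eq_zero_of_trace_orth ρ habs (ρ.ρ σ - ρ.ρ τ) (fun g => by
    rw [mul_sub, map_sub, ← map_mul, ← map_mul, h g, sub_self])
  exact sub_eq_zero.mp h0

end Fermat.Agent.S31.H202
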