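import Mathlib
import Fermat.Agent.S31.Defs
import Fermat.Agent.S31.H934.D4

/-!
# S31 piece D2 (helper202): completions of number fields give `p`-adic points

For a number field `K` and a prime `v` of `𝓞 K` over `p`, the ring `v.adicCompletionIntegers K`
is a complete DVR of characteristic zero with finite residue field, `p` lies in its maximal ideal,
and `x ∈ 𝓞 K` maps into `m ^ k` only if `x ∈ v ^ k`.

Main results:
* `exists_valued_sub_lt_one` : approximation of local integers by global integers;
* `finite_residueField_adicCompletionIntegers`, `compactSpace_adicCompletionIntegers`,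
  `isAdicComplete_adicCompletionIntegers`, `charZero_adicCompletionIntegers`;
* `d2 : H934.D2Statement p` (the exact interface of `H934/D4.lean`).
-/

set_option autoImplicit false

open IsDedekindDomain HeightOneSpectrum NumberField Valued WithZero

namespace Fermat.Agent.S31.H202

variable (K : Type) [Field K] [NumberField K] (v : HeightOneSpectrum (𝓞 K))

/-- every element of the completion with valuation `≤ 1` is congruent to a global integer modulo
elements of valuation `< 1`. -/
theorem exists_valued_sub_lt_one (y : v.adicCompletion K) (hy : Valued.v y ≤ 1) :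
    ∃ a : 𝓞 K, Valued.v (y - algebraMap (𝓞 K) (v.adicCompletion K) a) < 1 := by
  -- density of `K`
  have hopen : IsOpen {z : v.adicCompletion K | Valued.v (z - y) < 1} := by
    have h1 : IsOpen {x : v.adicCompletion K | Valued.v x < 1} := by
      have := Valued.isOpen_ball (v.adicCompletion K) 1
      simpa only [Valuation.restrict_lt_one_iff] using this
    exact h1.preimage (continuous_id.sub continuous_const)
  obtain ⟨x, hx⟩ := (denseRange_algebraMap K v).exists_mem_open hopen ⟨y, by simp⟩
  simp only [Set.mem_ofPred_eq] at hx
  -- `x` is integral at `v`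
  have hxv : v.valuation K x ≤ 1 := by
    have h1 : Valued.v (algebraMap K (v.adicCompletion K) x) ≤ 1 := by
      have : algebraMap K (v.adicCompletion K) x
          = (algebraMap K (v.adicCompletion K) x - y) + y := by
        ring
      rw [this]
      exact (Valuation.map_add _ _ _).trans (max_le hx.le hy)
    rwa [algebraMap_adicCompletion, Function.comp_apply, Algebra.algebraMap_self_apply,
      valuedAdicCompletion_eq_valuation'] at h1
  obtain ⟨a, ha⟩ := exists_valuation_sub_lt_of_integer v hxv 1
  refine ⟨a, ?_⟩
  have h2 : Valued.v (algebraMap K (v.adicCompletion K) (algebraMap (𝓞 K) K a - x)) < 1 := by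
    rw [algebraMap_adicCompletion, Function.comp_apply, Algebra.algebraMap_self_apply,
      valuedAdicCompletion_eq_valuation']
    simpa using ha
  have h3 : y - algebraMap (𝓞 K) (v.adicCompletion K) a
      = -((algebraMap K (v.adicCompletion K) x - y)
        + algebraMap K (v.adicCompletion K) (algebraMap (𝓞 K) K a - x)) := by
    rw [map_sub, ← IsScalarTower.algebraMap_apply]
    ring
  rw [h3, Valuation.map_neg]
  exact Valuation.map_add_lt _ hx h2

/-- membership in the maximal ideal of the local integers. -/
theorem mem_maximalIdeal_adicCompletionIntegers (y : v.adicCompletionIntegers K) :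
    y ∈ IsLocalRing.maximalIdeal (v.adicCompletionIntegers K)
      ↔ Valued.v (y : v.adicCompletion K) < 1 :=
  Valuation.mem_maximalIdeal_iff (v := (Valued.v : Valuation (v.adicCompletion K) ℤᵐ⁰))

/-- global integers in `v` land in the maximal ideal. -/
theorem algebraMap_mem_maximalIdeal (a : 𝓞 K) (ha : a ∈ v.asIdeal) :
    algebraMap (𝓞 K) (v.adicCompletionIntegers K) a
      ∈ IsLocalRing.maximalIdeal (v.adicCompletionIntegers K) := by
  rw [mem_maximalIdeal_adicCompletionIntegers]
  change Valued.v ((algebraMap (𝓞 K) K a : K) : v.adicCompletion K) < 1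
  rw [valuedAdicCompletion_eq_valuation', valuation_lt_one_iff_mem]
  exact ha

/-- the residue field of the completion is finite. -/
theorem finite_residueField_adicCompletionIntegers :
    Finite (IsLocalRing.ResidueField (v.adicCompletionIntegers K)) := by
  have hfin : Finite (𝓞 K ⧸ v.asIdeal) := Ideal.finiteQuotientOfFreeOfNeBot v.asIdeal v.ne_bot
  let f : 𝓞 K →+* IsLocalRing.ResidueField (v.adicCompletionIntegers K) :=
    (IsLocalRing.residue (v.adicCompletionIntegers K)).comp
      (algebraMap (𝓞 K) (v.adicCompletionIntegers K))
  have hf : Function.Surjective f := by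
    intro z
    obtain ⟨y, rfl⟩ := IsLocalRing.residue_surjective z
    obtain ⟨a, ha⟩ := exists_valued_sub_lt_one K v (y : v.adicCompletion K)
      ((mem_adicCompletionIntegers _ _ _).mp y.2)
    refine ⟨a, ?_⟩
    rw [RingHom.comp_apply, eq_comm, ← sub_eq_zero, ← map_sub, IsLocalRing.residue_eq_zero_iff,
      mem_maximalIdeal_adicCompletionIntegers]
    exact ha
  have hker : ∀ a ∈ v.asIdeal, f a = 0 := by
    intro a ha
    rw [RingHom.comp_apply, IsLocalRing.residue_eq_zero_iff]
    exact algebraMap_mem_maximalIdeal K v a ha
  exact Finite.of_surjective (Ideal.Quotient.lift v.asIdeal f hker)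
    (Ideal.Quotient.lift_surjective_of_surjective _ _ hf)

/-- the local integers are compact. -/
theorem compactSpace_adicCompletionIntegers : CompactSpace (v.adicCompletionIntegers K) := by
  have h1 : CompleteSpace 𝒪[v.adicCompletion K] :=
    (Valued.isClosed_integer (v.adicCompletion K)).completeSpace_coe
  have h2 : IsDiscreteValuationRing 𝒪[v.adicCompletion K] :=
    inferInstanceAs (IsDiscreteValuationRing (v.adicCompletionIntegers K))
  have h3 : Finite 𝓀[v.adicCompletion K] := finite_residueField_adicCompletionIntegers K v
  exact Valued.integer.compactSpace_iff_completeSpace_and_isDiscreteValuationRing_and_finite_residueField.mpr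
    ⟨h1, h2, h3⟩

open scoped Pointwise in
/-- the local integers are adically complete (argument of `Mathlib.NumberTheory.LocalField.Basic`). -/
theorem isAdicComplete_adicCompletionIntegers :
    IsAdicComplete (IsLocalRing.maximalIdeal (v.adicCompletionIntegers K))
      (v.adicCompletionIntegers K) where
  haus' := (inferInstance : IsHausdorff (IsLocalRing.maximalIdeal (v.adicCompletionIntegers K))
      (v.adicCompletionIntegers K)).haus'
  prec' f hf := by
    have := compactSpace_adicCompletionIntegers K v
    let S n : Set (v.adicCompletionIntegers K) :=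
      f n +ᵥ ((IsLocalRing.maximalIdeal (v.adicCompletionIntegers K) ^ n :
        Ideal (v.adicCompletionIntegers K)) : Set (v.adicCompletionIntegers K))
    have hS n : S (n + 1) ⊆ S n := by
      apply (Set.vadd_set_subset_vadd_set_iff.mpr (Ideal.pow_le_pow_right n.le_succ)).trans
      simpa [S] using (hf n.le_succ).symm
    have h n : IsClosed (S n) := (IsNoetherianRing.isClosed_ideal
      (IsLocalRing.maximalIdeal (v.adicCompletionIntegers K) ^ n)).vadd (f n)
    obtain ⟨L, hL⟩ := (h 0).isCompact.nonempty_iInter_of_sequence_nonempty_isCompact_isClosed S hS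
      (by simp [S]) h
    refine ⟨L, fun n ↦ ?_⟩
    obtain ⟨y, hy, rfl⟩ := Set.mem_iInter.mp hL n
    simpa [SModEq.sub_mem] using hy

/-- characteristic zero. -/
theorem charZero_adicCompletionIntegers : CharZero (v.adicCompletionIntegers K) := by
  have hinj : Function.Injective (algebraMap (𝓞 K) (v.adicCompletionIntegers K)) :=
    FaithfulSMul.algebraMap_injective _ _
  exact charZero_of_injective_ringHom hinj

/-- elements of `m ^ k` have valuation `≤ exp (-k)`. -/
theorem valued_le_of_mem_pow (k : ℕ) (y : v.adicCompletionIntegers K)
    (hy : y ∈ IsLocalRing.maximalIdeal (v.adicCompletionIntegers K) ^ k) :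
    Valued.v (y : v.adicCompletion K) ≤ exp (-(k : ℤ)) := by
  induction k generalizing y with
  | zero =>
    simp only [CharP.cast_eq_zero, neg_zero, exp_zero]
    exact (mem_adicCompletionIntegers _ _ _).mp y.2
  | succ k ih =>
    rw [pow_succ] at hy
    refine Submodule.mul_induction_on hy ?_ ?_
    · intro a ha b hb
      have h1 := ih a ha
      have h2 : Valued.v (b : v.adicCompletion K) ≤ exp (-1) := by
        have := (mem_maximalIdeal_adicCompletionIntegers K v b).mp hb
        rwa [← WithZero.lt_mul_exp_iff_le (by simp), ← exp_add, neg_add_cancel, exp_zero]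
      have : Valued.v (((a * b : v.adicCompletionIntegers K)) : v.adicCompletion K)
          = Valued.v (a : v.adicCompletion K) * Valued.v (b : v.adicCompletion K) := by
        rw [← Valuation.map_mul]
        rfl
      rw [this]
      calc Valued.v (a : v.adicCompletion K) * Valued.v (b : v.adicCompletion K)
          ≤ exp (-(k : ℤ)) * exp (-1) := mul_le_mul' h1 h2
        _ = exp (-((k + 1 : ℕ) : ℤ)) := by
            rw [← exp_add]
            congr 1
            push_cast
            ring
    · intro a b ha hb
      have : Valued.v (((a + b : v.adicCompletionIntegers K)) : v.adicCompletion K)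
          ≤ max (Valued.v (a : v.adicCompletion K)) (Valued.v (b : v.adicCompletion K)) :=
        Valuation.map_add _ _ _
      exact this.trans (max_le ha hb)

/-- **D2**: a prime `v` of `𝓞 K` over `p` gives a `p`-adic point of `𝓞 K` whose maximal-ideal
filtration detects the powers of `v`. -/
theorem d2 (p : ℕ) : Fermat.Agent.S31.H934.D2Statement p := by
  intro K _ _ v hpv
  have := finite_residueField_adicCompletionIntegers K v
  have := isAdicComplete_adicCompletionIntegers K v
  have := charZero_adicCompletionIntegers K v
  refine ⟨{ O := v.adicCompletionIntegers K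
            hp := ?_
            χ := algebraMap (𝓞 K) (v.adicCompletionIntegers K) }, ?_⟩
  · have := algebraMap_mem_maximalIdeal K v (p : 𝓞 K) hpv
    rwa [map_natCast] at this
  · intro x k hx
    have h1 := valued_le_of_mem_pow K v k _ hx
    change Valued.v ((algebraMap (𝓞 K) K x : K) : v.adicCompletion K) ≤ exp (-(k : ℤ)) at h1
    rw [valuedAdicCompletion_eq_valuation', valuation_of_algebraMap,
      intValuation_le_pow_iff_mem] at h1
    exact h1

end Fermat.Agent.S31.H202
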